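import Fermat.Agent.GoodReductionS18.Model.Field
import Fermat.Agent.GoodReduction.Hurwitz
import Fermat.Agent.ModCurveGenus.Fibres
import Fermat.Agent.Hecke.NormIdentity

/-!
# The Hauptmodul of level `2` or `3` is unramified on `X₀(M)` outside two values and infinity

`j = R(x)`, and the critical points of `R` away from `0` and `c` lie over `0` and `1728` with the
full ramification allowed there.
-/

set_option autoImplicit false

noncomputable section

open AlgebraicCurve ModularCurve Polynomial
open Fermat.Agent.FunctionField (degFun IsFunctionField)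
open Fermat.Agent.GoodReduction (fibre)
open Fermat.Agent.ModCurveGenus (FN jEl Qb)

namespace Fermat.Agent.GoodReductionModular

/-- The exceptional finite value of the Hauptmodul, besides `0`. -/
def hauptC (h : ℕ) : ℤ := if h = 2 then -64 else -27

section Multiplicity

variable {R : Type*} [Field R] [CharZero R]

omit [CharZero R] in
/-- `R⁻¹(a)` has full ramification at every point other than `0` and `c`. -/
theorem pow_dvd_numJ_sub {h : ℕ} (hh : h = 2 ∨ h = 3) {s a : R} (hs : s ≠ 0)
    (hsc : s ≠ (hauptC h : ℤ))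
    (ha : ((numJ h).map (Int.castRingHom R)).eval s = a * s ^ h) {m : ℕ}
    (hm : m = 1 ∨ a = 0 ∧ m = 3 ∨ a = 1728 ∧ m = 2) :
    (X - Polynomial.C s) ^ m ∣
      (numJ h).map (Int.castRingHom R) - Polynomial.C a * X ^ h := by
  rcases hh with rfl | rfl <;> rcases hm with rfl | ⟨rfl, rfl⟩ | ⟨rfl, rfl⟩
  · rw [pow_one, dvd_iff_isRoot, IsRoot, eval_sub, ha]
    simp
  · simp [numJ] at ha
    rw [show s = -256 by linear_combination ha]
    simp [numJ, sub_neg_eq_add, map_ofNat]
  · simp [numJ] at ha
    have h1 : (s + 64) * (s - 512) ^ 2 = 0 := by linear_combination ha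
    have h2 : s = 512 := by
      rcases mul_eq_zero.mp h1 with h | h
      · exact absurd (by simpa [hauptC] using eq_neg_of_add_eq_zero_left h) hsc
      · exact sub_eq_zero.mp (pow_eq_zero_iff two_ne_zero |>.mp h)
    refine Dvd.intro_left (X + Polynomial.C 64) ?_
    subst h2
    simp [numJ, map_ofNat]
    ring
  · rw [pow_one, dvd_iff_isRoot, IsRoot, eval_sub, ha]
    simp
  · simp [numJ] at ha
    rcases ha with h | h
    · exact absurd (by simpa [hauptC] using eq_neg_of_add_eq_zero_left h) hsc
    · rw [show s = -243 by linear_combination h]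
      simp [numJ, sub_neg_eq_add, map_ofNat]
  · simp [numJ] at ha
    have h1 : (s ^ 2 - 486 * s - 19683) ^ 2 = 0 := by linear_combination ha
    have h2 : X - Polynomial.C s ∣ X ^ 2 - Polynomial.C (486 : R) * X - Polynomial.C 19683 := by
      rw [dvd_iff_isRoot, IsRoot]
      simp only [eval_sub, eval_pow, eval_X, eval_mul, eval_C]
      exact pow_eq_zero_iff two_ne_zero |>.mp h1
    refine (pow_dvd_pow_of_dvd h2 2).trans (dvd_of_eq ?_)
    simp [numJ, map_ofNat]
    ring

end Multiplicity

section Places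

variable {K F : Type*} [Field K] [Field F] [Algebra K F]

theorem adicValuation_aeval_le_one (v : Place K F) {f : F} (hf : v.adicValuation f ≤ 1)
    (p : K[X]) : v.adicValuation (aeval f p) ≤ 1 := by
  induction p using Polynomial.induction_on' with
  | add p q hp hq => rw [map_add]; exact (Valuation.map_add _ _ _).trans (max_le hp hq)
  | monomial n c =>
    rw [aeval_monomial, map_mul, map_pow]
    exact (mul_le_mul' (v.adicValuation_algebraMap_le_one c) (pow_le_one' hf n)).trans_eq
      (one_mul 1)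

/-- From `J · xʰ = (x - s)ᵐ Q(x)` and `ord J ≤ m`: `x - s` has at most a simple zero. -/
theorem ord_sub_le_one_of_relation [IsFunctionField K F] [IsAlgClosed K] (v : Place K F) {x J : F}
    {s : K} (hs : s ≠ 0) (hJ : J ≠ 0) (hx0 : x ≠ 0) {m h : ℕ} (hm : 1 ≤ m) {Q : K[X]}
    (hrel : J * x ^ h = (x - algebraMap K F s) ^ m * aeval x Q)
    (hb : 0 < v.ord J → v.ord J ≤ m) (hv : 0 < v.ord (x - algebraMap K F s)) :
    v.ord (x - algebraMap K F s) ≤ 1 := by
  set u := x - algebraMap K F s with hu
  have hxu : x = u + algebraMap K F s := by rw [hu, sub_add_cancel]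
  have hu0 : u ≠ 0 := fun h => by rw [h, v.ord_zero] at hv; exact lt_irrefl _ hv
  have hul : v.adicValuation u < 1 := (FunctionField.adicValuation_lt_one_iff _).mpr (Or.inr hv)
  have hxv : v.adicValuation x = 1 := by
    rw [hxu, Valuation.map_add_eq_of_lt_right]
    · exact FunctionField.adicValuation_algebraMap _ hs
    · rwa [FunctionField.adicValuation_algebraMap _ hs]
  have hQ0 : aeval x Q ≠ 0 := fun h0 => by
    rw [h0, mul_zero] at hrel
    exact mul_ne_zero hJ (pow_ne_zero _ hx0) hrel
  have hQord : 0 ≤ v.ord (aeval x Q) :=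
    (v.adicValuation_le_one_iff.mp (adicValuation_aeval_le_one v hxv.le Q)).resolve_left hQ0
  have hxord : v.ord x = 0 := (FunctionField.adicValuation_eq_one_iff v hx0).mp hxv
  have h1 := congrArg v.ord hrel
  rw [v.ord_mul hJ (pow_ne_zero _ hx0), v.ord_mul (pow_ne_zero _ hu0) hQ0, FunctionField.ord_pow,
    FunctionField.ord_pow, hxord, mul_zero, add_zero] at h1
  have hpos : v.ord u ≤ (m : ℤ) * v.ord u := le_mul_of_one_le_left hv.le (by exact_mod_cast hm)
  have hle := hb (by omega)
  by_contra hlt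
  have : (m : ℤ) * 2 ≤ m * v.ord u := mul_le_mul_of_nonneg_left (by omega) (by positivity)
  omega

end Places

variable {M : ℕ} [NeZero M]

omit [NeZero M] in
theorem transcendental_of_coe_eq_hauptX {h : ℕ} [NeZero h] (hh : h = 2 ∨ h = 3) {x : FN M}
    (hx : (x : LaurentSeries Qb) = hauptX h Qb) : Transcendental Qb x := fun hal =>
  GoodReductionS18.transcendental_hauptX Qb hh (Nat.cast_ne_zero.mpr (NeZero.ne h))
    (hx ▸ hal.algHom (modularFunctionFieldBar M).val)

/-- The `q`-expansion of `j` at level `M`. -/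
theorem coe_jEl : ((jEl M : FN M) : LaurentSeries Qb) = jqModC Qb := by
  show coeffEmb Qb (qExpand ℚ 1 jq) = jqModC Qb
  rw [qExpand_one_apply, ← Hecke.jC_eq_jqModC]
  rfl

/-- The Hauptmodul has only simple zeros of `x - s` for `s ∉ {0, c}`. -/
theorem ord_hauptX_sub_le {h : ℕ} [NeZero h] (hh : h = 2 ∨ h = 3) {x : FN M}
    [IsFunctionField Qb (FN M)]
    (hx : (x : LaurentSeries Qb) = hauptX h Qb) {s : Qb} (hs : s ≠ 0)
    (hsc : s ≠ (hauptC h : ℤ)) (v : Place Qb (FN M))
    (hv : 0 < v.ord (x - algebraMap Qb (FN M) s)) :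
    v.ord (x - algebraMap Qb (FN M) s) ≤ 1 := by
  have hxt : Transcendental Qb x := transcendental_of_coe_eq_hauptX hh hx
  set u := x - algebraMap Qb (FN M) s with hu
  set a := ((numJ h).map (Int.castRingHom Qb)).eval s / s ^ h with ha
  have ha' : ((numJ h).map (Int.castRingHom Qb)).eval s = a * s ^ h := by
    rw [ha, div_mul_cancel₀ _ (pow_ne_zero h hs)]
  obtain ⟨m, hm, hmb⟩ : ∃ m : ℕ, (m = 1 ∨ a = 0 ∧ m = 3 ∨ a = 1728 ∧ m = 2) ∧
      ∀ w : Place Qb (FN M), 0 < w.ord (jEl M - algebraMap Qb (FN M) a) →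
        w.ord (jEl M - algebraMap Qb (FN M) a) ≤ m := by
    by_cases h0 : a = 0
    · exact ⟨3, .inr (.inl ⟨h0, rfl⟩), fun w hw => by
        simpa [h0] using ModCurveGenus.ord_jEl_sub_le M a w hw⟩
    by_cases h1 : a = 1728
    · exact ⟨2, .inr (.inr ⟨h1, rfl⟩), fun w hw => by
        simpa [h0, h1] using ModCurveGenus.ord_jEl_sub_le M a w hw⟩
    · exact ⟨1, .inl rfl, fun w hw => by
        simpa [h0, h1] using ModCurveGenus.ord_jEl_sub_le M a w hw⟩
  obtain ⟨Q', hQ'⟩ := pow_dvd_numJ_sub hh hs hsc ha' hm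
  have hrel : (jEl M - algebraMap Qb (FN M) a) * x ^ h = u ^ m * aeval x Q' := by
    have h1 : aeval x ((X - Polynomial.C s) ^ m * Q') = u ^ m * aeval x Q' := by
      simp [hu]
    rw [← h1, ← hQ']
    refine Subtype.ext ?_
    simp only [map_sub, map_mul, map_pow, aeval_def, eval₂_map, eval₂_C, eval₂_X]
    rw [RingHom.ext_int ((algebraMap Qb (FN M)).comp (Int.castRingHom Qb)) (Int.castRingHom _),
      sub_mul]
    push_cast
    rw [coe_jEl, hx, jqModC_mul_hauptX_pow h hh]
    congr 1
    have := Polynomial.hom_eval₂ (numJ h) (Int.castRingHom (FN M))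
      (modularFunctionFieldBar M).val.toRingHom x
    rw [RingHom.ext_int (((modularFunctionFieldBar M).val.toRingHom).comp (Int.castRingHom _))
      (Int.castRingHom _)] at this
    exact (this.trans
      (congrArg (fun z => (numJ h).eval₂ (Int.castRingHom (LaurentSeries Qb)) z) hx)).symm
  have hj0 : jEl M - algebraMap Qb (FN M) a ≠ 0 := fun h =>
    ModCurveGenus.transcendental_jEl_sub M a (h ▸ isAlgebraic_zero)
  have hmpos : 1 ≤ m := by rcases hm with h | h | h <;> omega
  exact ord_sub_le_one_of_relation v hs hj0 (fun h => hxt (h ▸ isAlgebraic_zero)) hmpos hrel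
    (hmb v) hv

/-- The fibres of the Hauptmodul over `s ∉ {0, c}` are reduced. -/
theorem card_fibre_hauptX {h : ℕ} [NeZero h] (hh : h = 2 ∨ h = 3) {x : FN M}
    [IsFunctionField Qb (FN M)]
    (hx : (x : LaurentSeries Qb) = hauptX h Qb) {s : Qb} (hs : s ≠ 0)
    (hsc : s ≠ (hauptC h : ℤ)) : (fibre x s).card = degFun Qb x := by
  have hsum := GoodReduction.sum_ord_fibre (transcendental_of_coe_eq_hauptX hh hx) s
  rw [Finset.sum_congr rfl fun v hv => le_antisymm
    (ord_hauptX_sub_le hh hx hs hsc v (GoodReduction.mem_zeros.mp hv))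
    (GoodReduction.mem_zeros.mp hv : (0 : ℤ) < _), Finset.sum_const, nsmul_eq_mul, mul_one] at hsum
  exact_mod_cast hsum

end Fermat.Agent.GoodReductionModular
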